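import Fermat.Agent.S13.H54.Minkowski

/-!
# S13, package D (helper54): the global statements in the shape of the S13 skeleton

* `exists_liesOverPrime` (D0): valuation subrings of `AlgebraicClosure ℚ` over every prime exist.
* `eq_top_of_inertia_le` (D2, in `Minkowski.lean`): a normal open subgroup of `Gal(ℚ̄/ℚ)`
  containing an inertia group above every prime is everything.
-/

set_option autoImplicit false

namespace Fermat.Agent.S13.H54

/-- D0: valuation subrings over every prime exist. -/
theorem exists_liesOverPrime (q : ℕ) (hq : q.Prime) :
    ∃ A : ValuationSubring (AlgebraicClosure ℚ), A.LiesOverPrime q := by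
  obtain ⟨A, hA, -⟩ := Fermat.Agent.S54.exists_isFrobeniusAt q hq
  exact ⟨A, hA⟩

end Fermat.Agent.S13.H54
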