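import Mathlib

/-!
# S13, global step (helper54): Minkowski's theorem in inertia form

* `exists_prime_inertia_ne`: in a Galois number field `K ≠ ℚ` some prime number `q` has
  nontrivial inertia at every prime of `𝓞 K` above it.
* `exists_prime_forall_exists_not_mem`: the same statement for the fixed field of an open normal
  subgroup `H ≠ ⊤` of `Gal(L/ℚ)`, `L/ℚ` any Galois extension, phrased inside the ring of all
  algebraic integers of `L`.
-/

set_option autoImplicit false
set_option linter.style.haveILetI false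

open scoped NumberField Pointwise

namespace Fermat.Agent.S13.H54

/-- **Minkowski, inertia form.** In a Galois number field `K ≠ ℚ` there is a prime number `q`
such that every prime of `𝓞 K` containing `q` has a nontrivial inertia group. -/
theorem exists_prime_inertia_ne (K : Type*) [Field K] [NumberField K] [IsGalois ℚ K]
    (h : 1 < Module.finrank ℚ K) :
    ∃ q : ℕ, q.Prime ∧ ∀ (P : Ideal (𝓞 K)) (_ : P.IsPrime), (q : 𝓞 K) ∈ P →
      ∃ τ : K ≃ₐ[ℚ] K, τ ≠ 1 ∧ ∀ x : 𝓞 K, ∃ y ∈ P, (y : K) = τ (x : K) - (x : K) := by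
  obtain ⟨q, hq, hram⟩ := NumberField.exists_not_isUnramifiedAt_int_of_isGalois (K := K)
    (𝒪 := 𝓞 K) h
  refine ⟨q, hq, fun P hP hqP => ?_⟩
  haveI := hP
  have hnr := hram P hP hqP
  letI : MulSemiringAction Gal(K/ℚ) (𝓞 K) := IsIntegralClosure.MulSemiringAction ℤ ℚ K (𝓞 K)
  haveI := IsGaloisGroup.of_isFractionRing Gal(K/ℚ) ℤ (𝓞 K) ℚ K
  have h1 : Nat.card (Ideal.inertia Gal(K/ℚ) P) = (P.under ℤ).ramificationIdxIn (𝓞 K) :=
    Ideal.card_inertia_eq_ramificationIdxIn (P.under ℤ) P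
  rw [Ideal.ramificationIdxIn_eq_ramificationIdx (P.under ℤ) P Gal(K/ℚ)] at h1
  have h2 : P.ramificationIdx ℤ ≠ 1 := fun h => hnr (Ideal.ramificationIdx_eq_one_iff.mp h)
  have h3 : Ideal.inertia Gal(K/ℚ) P ≠ ⊥ := by
    intro hbot
    rw [hbot] at h1
    simp at h1
    exact h2 h1.symm
  obtain ⟨⟨τ, hτ⟩, hτ1⟩ := (Subgroup.ne_bot_iff_exists_ne_one).mp h3
  refine ⟨τ, fun h => hτ1 (Subtype.ext h), fun x => ⟨τ • x - x, hτ x, ?_⟩⟩
  have h4 : algebraMap (𝓞 K) K (τ • x) = τ (algebraMap (𝓞 K) K x) :=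
    algebraMap_galRestrict_apply ℤ τ x
  have h5 : ((τ • x - x : 𝓞 K) : K) = algebraMap (𝓞 K) K (τ • x) - algebraMap (𝓞 K) K x :=
    map_sub (algebraMap (𝓞 K) K) _ _
  rw [h5, h4]

/-- The same with an arbitrary `ℚ`-algebra instance on `K`. -/
theorem exists_prime_inertia_ne' (K : Type*) [Field K] [CharZero K] [inst : Algebra ℚ K]
    [FiniteDimensional ℚ K] [IsGalois ℚ K] (h : 1 < Module.finrank ℚ K) :
    ∃ q : ℕ, q.Prime ∧ ∀ (P : Ideal (𝓞 K)) (_ : P.IsPrime), (q : 𝓞 K) ∈ P →
      ∃ τ : K ≃ₐ[ℚ] K, τ ≠ 1 ∧ ∀ x : 𝓞 K, ∃ y ∈ P, (y : K) = τ (x : K) - (x : K) := by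
  obtain rfl : inst = DivisionRing.toRatAlgebra := Subsingleton.elim _ _
  haveI : NumberField K := ⟨⟩
  exact exists_prime_inertia_ne K h

section Galois

universe u

variable (L : Type u) [Field L] [Algebra ℚ L] [IsGalois ℚ L]

attribute [-instance] DivisionRing.toRatAlgebra in
/-- **Minkowski for an open normal subgroup.** If `H ≠ ⊤` is an open normal subgroup of
`Gal(L/ℚ)`, there is a prime number `q` such that for every prime `Q` over `q` of the ring `B` of
algebraic integers of `L` some `σ₀ ∉ H` moves every `H`-invariant element of `B` by an element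
of `Q`. -/
theorem exists_prime_forall_exists_not_mem (H : Subgroup (L ≃ₐ[ℚ] L)) [hHn : H.Normal]
    (ho : IsOpen (H : Set (L ≃ₐ[ℚ] L))) (hne : H ≠ ⊤) :
    ∃ q : ℕ, q.Prime ∧ ∀ (Q : Ideal (integralClosure ℤ L)) (_ : Q.IsPrime),
      algebraMap ℤ (integralClosure ℤ L) (q : ℤ) ∈ Q →
      ∃ σ₀ : L ≃ₐ[ℚ] L, σ₀ ∉ H ∧
        ∀ c : integralClosure ℤ L, (∀ h ∈ H, h • c = c) → σ₀ • c - c ∈ Q := by
  haveI : CharZero L := algebraRat.charZero L
  have hcl : IsClosed (H : Set (L ≃ₐ[ℚ] L)) := H.isClosed_of_isOpen ho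
  have hF : (IntermediateField.fixedField H).fixingSubgroup = H :=
    InfiniteGalois.fixingSubgroup_fixedField ⟨H, hcl⟩
  generalize hFdef : IntermediateField.fixedField H = F at hF
  haveI hfin : FiniteDimensional ℚ F :=
    (InfiniteGalois.isOpen_iff_finite F).mp (by rw [hF]; exact ho)
  haveI hgal : IsGalois ℚ F :=
    (InfiniteGalois.normal_iff_isGalois F).mp (by rw [hF]; exact hHn)
  have hrank : 1 < Module.finrank ℚ F := by
    by_contra hle
    have h0 : 0 < Module.finrank ℚ F := Module.finrank_pos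
    have h1 : Module.finrank ℚ F = 1 := by omega
    have h2 : F = ⊥ := IntermediateField.finrank_eq_one_iff.mp h1
    apply hne
    rw [← hF, h2, IntermediateField.fixingSubgroup_bot]
  obtain ⟨q, hq, hτ⟩ := exists_prime_inertia_ne' F hrank
  refine ⟨q, hq, fun Q hQ hqQ => ?_⟩
  haveI := hQ
  have hint : ∀ x : 𝓞 F, IsIntegral ℤ (((x : F) : L)) := fun x =>
    (isIntegral_algebraMap_iff (algebraMap F L).injective).mpr
      (NumberField.RingOfIntegers.isIntegral_coe x)
  let j : 𝓞 F →+* integralClosure ℤ L :=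
    { toFun := fun x => ⟨((x : F) : L), hint x⟩
      map_one' := rfl
      map_mul' := fun _ _ => rfl
      map_zero' := rfl
      map_add' := fun _ _ => rfl }
  have hqP : (q : 𝓞 F) ∈ Q.comap j := by
    rw [Ideal.mem_comap, map_natCast]
    simpa using hqQ
  obtain ⟨τ, hτ1, hτP⟩ := hτ (Q.comap j) (Ideal.comap_isPrime j Q) hqP
  have hlift : ∀ x : F, (τ.liftNormal L) (x : L) = ((τ x : F) : L) :=
    fun x => AlgEquiv.liftNormal_commutes τ L x
  refine ⟨τ.liftNormal L, ?_, ?_⟩
  · intro hmem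
    apply hτ1
    rw [← hF, IntermediateField.mem_fixingSubgroup_iff] at hmem
    ext x
    have h1 := hmem (x : L) x.2
    rw [hlift x] at h1
    exact h1
  · intro c hc
    have hcF : (c : L) ∈ F := by
      rw [← hFdef, IntermediateField.mem_fixedField_iff]
      intro f hf
      exact congrArg Subtype.val (hc f hf)
    have hcint : IsIntegral ℤ (⟨(c : L), hcF⟩ : F) :=
      (isIntegral_algebraMap_iff (algebraMap F L).injective).mp c.2
    obtain ⟨y, hyP, hy⟩ := hτP ⟨⟨(c : L), hcF⟩, hcint⟩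
    have hjy : j y = (τ.liftNormal L) • c - c := by
      apply Subtype.ext
      show ((y : F) : L) = (τ.liftNormal L) (c : L) - (c : L)
      rw [hy]
      have h1 := hlift ⟨(c : L), hcF⟩
      simp only at h1
      rw [h1]
      rfl
    rw [← hjy]
    exact hyP

end Galois

end Fermat.Agent.S13.H54
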