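import Fermat.Agent.S13.H54.ValRing

/-!
# S13, global step (helper54): lifting inertia through a closed normal subgroup

`L / ℚ` Galois, `B = integralClosure ℤ L`, `H` a closed normal subgroup of `Gal(L/ℚ)`,
`Q` a prime of `B`.  If `σ₀` moves every `H`-invariant element of `B` by an element of `Q`
(i.e. `σ₀` restricts to an element of the inertia group of `Q ∩ B^H` in `Gal(L^H/ℚ)`), then some
translate `h * σ₀`, `h ∈ H`, stabilises `Q` and acts trivially on `B ⧸ Q`.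
-/

set_option autoImplicit false
set_option linter.style.haveILetI false

namespace Fermat.Agent.S13.H54

open Fermat.Agent.S54
open scoped Pointwise

section Lift

universe u

variable (L : Type u) [Field L] [Algebra ℚ L] [IsGalois ℚ L]

theorem exists_mul_mem_inertia (H : Subgroup (L ≃ₐ[ℚ] L)) [hHn : H.Normal]
    (hH : IsClosed (H : Set (L ≃ₐ[ℚ] L)))
    (Q : Ideal (integralClosure ℤ L)) [hQ : Q.IsPrime] (σ₀ : L ≃ₐ[ℚ] L)
    (h₀ : ∀ c : integralClosure ℤ L, (∀ h ∈ H, h • c = c) → σ₀ • c - c ∈ Q) :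
    ∃ h ∈ H, (∀ b : integralClosure ℤ L, (h * σ₀) • b ∈ Q ↔ b ∈ Q) ∧
      ∀ b : integralClosure ℤ L, (h * σ₀) • b - b ∈ Q := by
  letI : TopologicalSpace (integralClosure ℤ L) := ⊥
  haveI : DiscreteTopology (integralClosure ℤ L) := ⟨rfl⟩
  haveI : ContinuousSMul (L ≃ₐ[ℚ] L) (integralClosure ℤ L) := by
    rw [continuousSMul_iff_stabilizer_isOpen]
    intro b
    convert stabilizer_isOpen_of_isIntegral (K := ℚ) (b : L) using 2
    ext g
    simp [MulAction.mem_stabilizer_iff, Subtype.ext_iff]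
  haveI : ContinuousSMul H (integralClosure ℤ L) :=
    ⟨(continuous_smul (M := L ≃ₐ[ℚ] L) (X := integralClosure ℤ L)).comp
      (continuous_subtype_val.prodMap continuous_id)⟩
  haveI : CompactSpace H := isCompact_iff_compactSpace.mp hH.isCompact
  haveI : Algebra.IsInvariant (FixedPoints.subalgebra ℤ (integralClosure ℤ L) H)
      (integralClosure ℤ L) H := ⟨fun b hb => ⟨⟨b, hb⟩, rfl⟩⟩
  -- `C`-membership
  have hCmem : ∀ c : integralClosure ℤ L,
      c ∈ FixedPoints.subalgebra ℤ (integralClosure ℤ L) H ↔ ∀ h ∈ H, h • c = c := by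
    intro c
    constructor
    · intro hc h hh
      exact hc ⟨h, hh⟩
    · intro hc h
      exact hc h.1 h.2
  -- `C` is stable under the whole group
  have hCstab : ∀ (g : L ≃ₐ[ℚ] L) (c : integralClosure ℤ L),
      (∀ h ∈ H, h • c = c) → ∀ h ∈ H, h • (g • c) = g • c := by
    intro g c hc h hh
    have h1 : (g⁻¹ * h * g) • c = c := hc _ (by
      have := hHn.conj_mem h hh g⁻¹
      simpa using this)
    calc h • g • c = g • (g⁻¹ * h * g) • c := by
          rw [← mul_smul, ← mul_smul, ← mul_assoc, ← mul_assoc, mul_inv_cancel, one_mul]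
      _ = g • c := by rw [h1]
  -- step 1: `σ₀ • Q` and `Q` have the same contraction
  have hB : ∀ c : integralClosure ℤ L, (∀ h ∈ H, h • c = c) → (σ₀ • c ∈ Q ↔ c ∈ Q) := by
    intro c hc
    have h1 := h₀ c hc
    constructor
    · intro h2
      have := Q.sub_mem h2 h1
      simpa using this
    · intro h2
      have := Q.add_mem h1 h2
      simpa using this
  have hunder : (σ₀ • Q).under (FixedPoints.subalgebra ℤ (integralClosure ℤ L) H) =
      Q.under (FixedPoints.subalgebra ℤ (integralClosure ℤ L) H) := by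
    ext c
    rw [Ideal.mem_comap, Ideal.mem_comap, Ideal.mem_pointwise_smul_iff_inv_smul_mem]
    have hc : ∀ h ∈ H, h • (c : integralClosure ℤ L) = c := (hCmem _).mp c.2
    have h1 := hB (σ₀⁻¹ • (c : integralClosure ℤ L)) (hCstab σ₀⁻¹ _ hc)
    rw [smul_inv_smul] at h1
    exact h1.symm
  -- step 2: move `σ₀ • Q` back to `Q` by an element of `H`
  obtain ⟨g, hg⟩ := Algebra.IsInvariant.exists_smul_of_under_eq_of_profinite
    (A := FixedPoints.subalgebra ℤ (integralClosure ℤ L) H) (G := H) (σ₀ • Q) Q hunder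
  have hσ₁Q : ((g : L ≃ₐ[ℚ] L) * σ₀) • Q = Q := by
    rw [mul_smul]
    exact hg.symm
  have hσ₁C : ∀ c : integralClosure ℤ L, (∀ h ∈ H, h • c = c) →
      ((g : L ≃ₐ[ℚ] L) * σ₀) • c - c ∈ Q := by
    intro c hc
    have h1 : (g : L ≃ₐ[ℚ] L) • σ₀ • c = σ₀ • c := hCstab σ₀ c hc g g.2
    rw [mul_smul, h1]
    exact h₀ c hc
  -- step 3: the automorphism of `B ⧸ Q` induced by `σ₁` is induced by an element of `H`
  have hσ₁stab : (g : L ≃ₐ[ℚ] L) * σ₀ ∈ MulAction.stabilizer (L ≃ₐ[ℚ] L) Q :=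
    MulAction.mem_stabilizer_iff.mpr hσ₁Q
  let e₀ := Ideal.Quotient.stabilizerHom Q (Q.under ℤ) (L ≃ₐ[ℚ] L) ⟨_, hσ₁stab⟩
  have he₀ : ∀ b : integralClosure ℤ L, e₀ (Ideal.Quotient.mk Q b) =
      Ideal.Quotient.mk Q (((g : L ≃ₐ[ℚ] L) * σ₀) • b) := fun b =>
    Ideal.Quotient.stabilizerHom_apply Q (Q.under ℤ) (L ≃ₐ[ℚ] L) ⟨_, hσ₁stab⟩ b
  let e₁ : (integralClosure ℤ L ⧸ Q) ≃ₐ[FixedPoints.subalgebra ℤ (integralClosure ℤ L) H ⧸
      Q.under (FixedPoints.subalgebra ℤ (integralClosure ℤ L) H)] (integralClosure ℤ L ⧸ Q) :=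
    AlgEquiv.ofRingEquiv (f := e₀.toRingEquiv) (by
      intro x
      obtain ⟨c, rfl⟩ := Ideal.Quotient.mk_surjective x
      rw [Ideal.Quotient.algebraMap_mk_of_liesOver]
      show e₀ (Ideal.Quotient.mk Q (c : integralClosure ℤ L)) = _
      rw [he₀]
      exact Ideal.Quotient.eq.mpr (hσ₁C _ ((hCmem _).mp c.2)))
  obtain ⟨⟨h', hh'⟩, he⟩ := Ideal.Quotient.stabilizerHom_surjective_of_profinite (G := H)
    (Q.under (FixedPoints.subalgebra ℤ (integralClosure ℤ L) H)) Q e₁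
  have hh'Q : (h' : L ≃ₐ[ℚ] L) • Q = Q := MulAction.mem_stabilizer_iff.mp hh'
  have hcmp : ∀ b : integralClosure ℤ L,
      (h' : L ≃ₐ[ℚ] L) • b - ((g : L ≃ₐ[ℚ] L) * σ₀) • b ∈ Q := by
    intro b
    have h1 := DFunLike.congr_fun he (Ideal.Quotient.mk Q b)
    rw [Ideal.Quotient.stabilizerHom_apply] at h1
    have h2 : e₁ (Ideal.Quotient.mk Q b) = Ideal.Quotient.mk Q (((g : L ≃ₐ[ℚ] L) * σ₀) • b) :=
      he₀ b
    rw [h2] at h1
    exact Ideal.Quotient.eq.mp h1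
  -- step 4: the corrected element
  refine ⟨(h' : L ≃ₐ[ℚ] L)⁻¹ * g, H.mul_mem (H.inv_mem h'.2) g.2, ?_, ?_⟩
  · intro b
    have hstab : ((h' : L ≃ₐ[ℚ] L)⁻¹ * g * σ₀) • Q = Q := by
      rw [mul_assoc, mul_smul, hσ₁Q, inv_smul_eq_iff, hh'Q]
    conv_lhs => rw [← hstab]
    exact Ideal.smul_mem_pointwise_smul_iff
  · intro b
    have h1 : ((h' : L ≃ₐ[ℚ] L)⁻¹ * g * σ₀) • b - b =
        (h' : L ≃ₐ[ℚ] L)⁻¹ • (((g : L ≃ₐ[ℚ] L) * σ₀) • b - (h' : L ≃ₐ[ℚ] L) • b) := by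
      rw [smul_sub, inv_smul_smul, mul_assoc, mul_smul]
    rw [h1]
    have h2 : ((g : L ≃ₐ[ℚ] L) * σ₀) • b - (h' : L ≃ₐ[ℚ] L) • b ∈ Q := by
      have := Q.neg_mem (hcmp b)
      simpa using this
    have h3 : (h' : L ≃ₐ[ℚ] L)⁻¹ • Q = Q := by
      rw [inv_smul_eq_iff, hh'Q]
    have h4 := (Ideal.smul_mem_pointwise_smul_iff (a := (h' : L ≃ₐ[ℚ] L)⁻¹) (S := Q)).mpr h2
    rwa [h3] at h4

end Lift

end Fermat.Agent.S13.H54
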