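import Fermat.Agent.S13.H54.Lift
import Fermat.Agent.S13.H54.Finite

/-!
# S13, global step (helper54): an open normal subgroup of `Gal(ℚ̄/ℚ)` containing an inertia
group above every prime is the whole group

`eq_top_of_inertia_le` is the statement for `AlgebraicClosure ℚ` in the vocabulary of the frozen
statements (`ValuationSubring.LiesOverPrime`, `ValuationSubring.inertiaSubgroupIn`);
`eq_top_of_inertia_le_of_isGalois` is the same for any Galois extension of `ℚ`.
-/

set_option autoImplicit false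
set_option linter.style.haveILetI false

namespace Fermat.Agent.S13.H54

open Fermat.Agent.S54

section Main

universe u

/-- **Minkowski, Galois form.** Let `L/ℚ` be Galois and `H` an open normal subgroup of
`Gal(L/ℚ)`.  If for every prime number `q` the subgroup `H` contains the inertia subgroup of some
valuation subring of `L` over `q`, then `H = ⊤`. -/
theorem eq_top_of_inertia_le_of_isGalois (L : Type u) [Field L] [Algebra ℚ L] [IsGalois ℚ L]
    (H : Subgroup (L ≃ₐ[ℚ] L)) (hn : H.Normal) (ho : IsOpen (H : Set (L ≃ₐ[ℚ] L)))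
    (hI : ∀ q : ℕ, q.Prime →
      ∃ A : ValuationSubring L, A.LiesOverPrime q ∧ A.inertiaSubgroupIn ℚ ≤ H) :
    H = ⊤ := by
  by_contra hne
  haveI := hn
  obtain ⟨q, hq, hfin⟩ := exists_prime_forall_exists_not_mem L H ho hne
  obtain ⟨A, hAq, hAI⟩ := hI q hq
  obtain ⟨Q, hQ, hQq, hqQ, rfl⟩ := exists_eq_locValuationSubring A q hq hAq
  haveI := hQ
  obtain ⟨σ₀, hσ₀H, hσ₀⟩ := hfin Q hQ hqQ
  obtain ⟨h, hh, hstab, hin⟩ :=
    exists_mul_mem_inertia L H (H.isClosed_of_isOpen ho) Q σ₀ hσ₀
  have hmem := mem_inertiaSubgroupIn_locValuationSubring Q q hq hQq (h * σ₀) hstab hin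
  have h1 : h * σ₀ ∈ H := hAI hmem
  exact hσ₀H ((Subgroup.mul_mem_cancel_left H hh).mp h1)

/-- **Minkowski for `Gal(ℚ̄/ℚ)`.** An open normal subgroup of the absolute Galois group of `ℚ`
that contains, for every prime number `q`, the inertia subgroup of some valuation subring of
`AlgebraicClosure ℚ` over `q`, is the whole group. -/
theorem eq_top_of_inertia_le
    (H : Subgroup (AlgebraicClosure ℚ ≃ₐ[ℚ] AlgebraicClosure ℚ)) (hn : H.Normal)
    (ho : IsOpen (H : Set (AlgebraicClosure ℚ ≃ₐ[ℚ] AlgebraicClosure ℚ)))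
    (hI : ∀ q : ℕ, q.Prime → ∃ A : ValuationSubring (AlgebraicClosure ℚ),
      A.LiesOverPrime q ∧ A.inertiaSubgroupIn ℚ ≤ H) :
    H = ⊤ :=
  haveI := isGalois_algebraicClosure_rat
  eq_top_of_inertia_le_of_isGalois (AlgebraicClosure ℚ) H hn ho hI

end Main

end Fermat.Agent.S13.H54
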