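import Mathlib
import Fermat.Prelude.Def_FLTPrelim_Ramification
import Fermat.Agent.S54.Frobenius

/-!
# S13, global step (helper54): valuation subrings over a prime number and primes of the ring
of all algebraic integers

`L` is an algebraic extension of `ℚ`, `B = integralClosure ℤ L`.  Every valuation subring `A`
of `L` in which a prime number `q` is a nonunit is the localisation of `B` at the prime
`primeOf A = 𝔪_A ∩ B` (`exists_eq_locValuationSubring`), and an automorphism that stabilises
this prime and acts trivially on `B ⧸ primeOf A` lies in the inertia subgroup of `A`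
(`mem_inertiaSubgroupIn_locValuationSubring`).
-/

set_option autoImplicit false
set_option linter.style.haveILetI false

namespace Fermat.Agent.S13.H54

open Fermat.Agent.S54
open scoped Pointwise

section ValRing

universe u

variable {L : Type u} [Field L]

/-- Algebraic integers lie in every valuation subring. -/
theorem coe_mem_valuationSubring (A : ValuationSubring L) (b : integralClosure ℤ L) :
    (b : L) ∈ A := by
  have h1 : IsIntegral ℤ (b : L) := b.2
  have h2 : IsIntegral A (b : L) := h1.tower_top
  obtain ⟨y, hy⟩ := IsIntegrallyClosed.isIntegral_iff.mp h2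
  rw [← hy]
  exact y.2

/-- The inclusion of the ring of algebraic integers into a valuation subring. -/
def toValuationSubring (A : ValuationSubring L) : integralClosure ℤ L →+* A where
  toFun b := ⟨(b : L), coe_mem_valuationSubring A b⟩
  map_one' := rfl
  map_mul' _ _ := rfl
  map_zero' := rfl
  map_add' _ _ := rfl

/-- The prime of the ring of algebraic integers cut out by a valuation subring. -/
def primeOf (A : ValuationSubring L) : Ideal (integralClosure ℤ L) :=
  (IsLocalRing.maximalIdeal A).comap (toValuationSubring A)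

instance primeOf_isPrime (A : ValuationSubring L) : (primeOf A).IsPrime :=
  Ideal.comap_isPrime _ _

theorem mem_primeOf_iff (A : ValuationSubring L) (b : integralClosure ℤ L) :
    b ∈ primeOf A ↔ (b : L) ∈ A.nonunits := by
  rw [primeOf, Ideal.mem_comap, ← ValuationSubring.coe_mem_nonunits_iff]
  rfl

theorem natCast_mem_primeOf (A : ValuationSubring L) (q : ℕ) (hA : A.LiesOverPrime q) :
    algebraMap ℤ (integralClosure ℤ L) (q : ℤ) ∈ primeOf A := by
  rw [mem_primeOf_iff]
  have : ((algebraMap ℤ (integralClosure ℤ L) (q : ℤ) : integralClosure ℤ L) : L) = (q : L) := by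
    simp
  rw [this]
  exact hA

theorem dvd_of_mem_primeOf (A : ValuationSubring L) (q : ℕ) (hq : q.Prime)
    (hA : A.LiesOverPrime q) (a : ℤ) (ha : algebraMap ℤ (integralClosure ℤ L) a ∈ primeOf A) :
    (q : ℤ) ∣ a := by
  by_contra hdvd
  have hcop : IsCoprime (q : ℤ) a :=
    (Nat.prime_iff_prime_int.mp hq).coprime_iff_not_dvd.mpr hdvd
  obtain ⟨u, v, huv⟩ := hcop
  have h1 := (primeOf A).add_mem
    ((primeOf A).mul_mem_left (algebraMap ℤ (integralClosure ℤ L) u) (natCast_mem_primeOf A q hA))
    ((primeOf A).mul_mem_left (algebraMap ℤ (integralClosure ℤ L) v) ha)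
  rw [← map_mul, ← map_mul, ← map_add, huv, map_one] at h1
  exact (primeOf_isPrime A).ne_top ((Ideal.eq_top_iff_one _).mpr h1)

variable [Algebra ℚ L] [Algebra.IsAlgebraic ℚ L]

/-- A valuation subring of `L` over the prime number `q` is the localisation of the ring of
algebraic integers at a prime over `q`. -/
theorem exists_eq_locValuationSubring (A : ValuationSubring L) (q : ℕ) (hq : q.Prime)
    (hA : A.LiesOverPrime q) :
    ∃ (Q : Ideal (integralClosure ℤ L)) (_ : Q.IsPrime)
      (hQ : ∀ a : ℤ, algebraMap ℤ (integralClosure ℤ L) a ∈ Q → (q : ℤ) ∣ a),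
      algebraMap ℤ (integralClosure ℤ L) (q : ℤ) ∈ Q ∧ A = locValuationSubring Q q hq hQ := by
  refine ⟨primeOf A, primeOf_isPrime A, dvd_of_mem_primeOf A q hq hA,
    natCast_mem_primeOf A q hA, ?_⟩
  have hle : ∀ x : L, x ∈ locValuationSubring (primeOf A) q hq (dvd_of_mem_primeOf A q hq hA) →
      x ∈ A := by
    rintro x ⟨s, b, hs, hb⟩
    have hs' : (s : L) ∉ A.nonunits := fun h => hs ((mem_primeOf_iff A s).mpr h)
    have hsA : (s : L) ∈ A := coe_mem_valuationSubring A s
    have hbA : (b : L) ∈ A := coe_mem_valuationSubring A b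
    rw [ValuationSubring.mem_nonunits_iff_or] at hs'
    push Not at hs'
    have hs0 : (s : L) ≠ 0 := hs'.1
    have hx : x = (b : L) * (s : L)⁻¹ := by
      rw [← hb]
      field_simp
    rw [hx]
    exact A.mul_mem _ _ hbA hs'.2
  ext x
  constructor
  · intro hx
    by_cases hx0 : x = 0
    · rw [hx0]
      exact (locValuationSubring (primeOf A) q hq (dvd_of_mem_primeOf A q hq hA)).zero_mem
    rcases mem_locSubring_or_inv_mem (primeOf A) q hq (dvd_of_mem_primeOf A q hq hA) x with h | h
    · exact h
    · obtain ⟨s, b, hs, hb⟩ := h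
      have hsx : (s : L) = x * (b : L) := by
        rw [← hb]
        field_simp
      by_cases hbQ : b ∈ primeOf A
      · exfalso
        apply hs
        rw [mem_primeOf_iff] at hbQ ⊢
        rw [ValuationSubring.mem_nonunits_iff_exists_mem_maximalIdeal] at hbQ ⊢
        obtain ⟨hbA, hbm⟩ := hbQ
        refine ⟨coe_mem_valuationSubring A s, ?_⟩
        have h1 := (IsLocalRing.maximalIdeal A).mul_mem_left ⟨x, hx⟩ hbm
        have h2 : (⟨(s : L), coe_mem_valuationSubring A s⟩ : A) = ⟨x, hx⟩ * ⟨(b : L), hbA⟩ :=
          Subtype.ext hsx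
        rw [h2]
        exact h1
      · exact ⟨b, s, hbQ, hsx.symm⟩
  · exact hle x

/-- An automorphism stabilising the prime `Q` and acting trivially on the residue ring at `Q`
lies in the inertia subgroup of the localisation at `Q`. -/
theorem mem_inertiaSubgroupIn_locValuationSubring
    (Q : Ideal (integralClosure ℤ L)) [hQ : Q.IsPrime] (q : ℕ) (hq : q.Prime)
    (hQq : ∀ a : ℤ, algebraMap ℤ (integralClosure ℤ L) a ∈ Q → (q : ℤ) ∣ a)
    (σ : L ≃ₐ[ℚ] L) (hσQ : ∀ b : integralClosure ℤ L, σ • b ∈ Q ↔ b ∈ Q)
    (hσI : ∀ b : integralClosure ℤ L, σ • b - b ∈ Q) :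
    σ ∈ (locValuationSubring Q q hq hQq).inertiaSubgroupIn ℚ := by
  have hσinv : ∀ b : integralClosure ℤ L, σ⁻¹ • b ∈ Q ↔ b ∈ Q := by
    intro b
    have := hσQ (σ⁻¹ • b)
    rw [smul_inv_smul] at this
    exact this.symm
  have hdec : σ ∈ (locValuationSubring Q q hq hQq).decompositionSubgroup ℚ := by
    rw [MulAction.mem_stabilizer_iff]
    ext x
    rw [ValuationSubring.mem_pointwise_smul_iff_inv_smul_mem]
    constructor
    · intro hx
      have := apply_mem_locValuationSubring Q q hq hQq σ hσQ _ hx
      simpa using this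
    · intro hx
      exact apply_mem_locValuationSubring Q q hq hQq σ⁻¹ hσinv _ hx
  refine ⟨⟨σ, hdec⟩, ?_, rfl⟩
  show (⟨σ, hdec⟩ : (locValuationSubring Q q hq hQq).decompositionSubgroup ℚ) ∈
    (locValuationSubring Q q hq hQq).inertiaSubgroup ℚ
  rw [ValuationSubring.inertiaSubgroup, MonoidHom.mem_ker]
  ext x
  obtain ⟨a, rfl⟩ := IsLocalRing.residue_surjective x
  show (⟨σ, hdec⟩ : (locValuationSubring Q q hq hQq).decompositionSubgroup ℚ) •
    IsLocalRing.residue _ a = IsLocalRing.residue _ a
  rw [← IsLocalRing.ResidueField.residue_smul, ← sub_eq_zero, ← map_sub,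
    IsLocalRing.residue_eq_zero_iff, ← ValuationSubring.coe_mem_nonunits_iff]
  obtain ⟨s, b, hs, hb⟩ := a.2
  have hcoe : (((⟨σ, hdec⟩ : (locValuationSubring Q q hq hQq).decompositionSubgroup ℚ) • a
      - a : locValuationSubring Q q hq hQq) : L) = σ (a : L) - (a : L) := rfl
  rw [hcoe]
  refine mem_nonunits_locValuationSubring Q q hq hQq _ (σ • s * s)
    ((σ • b - b) * s - b * (σ • s - s)) ?_ ?_ ?_
  · intro h
    rcases hQ.mem_or_mem h with h | h
    · exact hs ((hσQ s).mp h)
    · exact hs h
  · exact Q.sub_mem (Q.mul_mem_right _ (hσI b)) (Q.mul_mem_left _ (hσI s))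
  · have h1 : ((σ • s : integralClosure ℤ L) : L) = σ (s : L) := rfl
    have h2 : ((σ • b : integralClosure ℤ L) : L) = σ (b : L) := rfl
    push_cast
    rw [h1, h2, ← hb, map_mul]
    ring

end ValRing

end Fermat.Agent.S13.H54
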